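import Fermat.Prelude.Thm_ModularForm_sturm_bound_Gamma0
import Fermat.Prelude.Thm_CongruenceSubgroup_one_mem_strictPeriods_Gamma0
import Mathlib

/-!
# Weight-two cusp forms in small index

Weight-two cusp forms on `Γ₀(N)` vanish when the index of `Γ₀(N)` is less than `6`.
-/

set_option autoImplicit false

namespace Fermat.Agent.Elem

open scoped MatrixGroups

/-- **No weight-two cusp forms in small index**, by Sturm's bound. -/
theorem cuspForm_two_eq_zero_of_index_lt (N : ℕ) [NeZero N]
    (hN : (CongruenceSubgroup.Gamma0 N).index < 6)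
    (f : CuspForm (CongruenceSubgroup.Gamma0 N) 2) : f = 0 := by
  have hΓ := CongruenceSubgroup.one_mem_strictPeriods_Gamma0 N
  have hmf :
      (ModularFormClass.modularForm f : ModularForm (CongruenceSubgroup.Gamma0 N) 2) = 0 := by
    refine ModularForm.sturm_bound_Gamma0 N _ fun n hn ↦ ?_
    have h0 : ((2 : ℤ) * (CongruenceSubgroup.Gamma0 N).index).toNat / 12 = 0 := by
      omega
    rw [h0, Nat.le_zero] at hn
    subst hn
    exact CuspFormClass.qExpansion_coeff_zero f one_pos hΓ
  have hcoe : (⇑f : UpperHalfPlane → ℂ) = 0 := by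
    have := congrArg (fun F : ModularForm (CongruenceSubgroup.Gamma0 N) 2 ↦
      (⇑F : UpperHalfPlane → ℂ)) hmf
    simpa using this
  exact DFunLike.coe_injective (hcoe.trans FunLike.coe_zero.symm)

/-- First column of an element of `SL(2, ℤ)`, read modulo `2`. -/
def colModTwo (g : SL(2, ℤ)) : ZMod 2 × ZMod 2 :=
  ((g 0 0 : ZMod 2), (g 1 0 : ZMod 2))

theorem colModTwo_mul {g h : SL(2, ℤ)} (hh : h ∈ CongruenceSubgroup.Gamma0 2) :
    colModTwo (g * h) = colModTwo g := by
  have h10 : (h 1 0 : ZMod 2) = 0 := CongruenceSubgroup.Gamma0_mem.mp hh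
  have hdet := h.prop
  rw [Matrix.det_fin_two] at hdet
  have h00 : (h 0 0 : ZMod 2) = 1 := by
    have hd : ((h 0 0 : ZMod 2) * (h 1 1 : ZMod 2)) - (h 0 1 : ZMod 2) * (h 1 0 : ZMod 2) = 1 := by
      exact_mod_cast congrArg (fun x : ℤ => (x : ZMod 2)) hdet
    rw [h10] at hd
    generalize (h 0 0 : ZMod 2) = x at hd ⊢
    generalize (h 1 1 : ZMod 2) = y at hd
    generalize (h 0 1 : ZMod 2) = z at hd
    revert x y z
    decide
  simp [colModTwo, Matrix.mul_apply, Fin.sum_univ_two, h10, h00]

/-- `Γ₀(2)` has index at most `4`. -/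
theorem index_Gamma0_two_le : (CongruenceSubgroup.Gamma0 2).index ≤ 4 := by
  let φ : SL(2, ℤ) ⧸ CongruenceSubgroup.Gamma0 2 → ZMod 2 × ZMod 2 :=
    Quotient.lift colModTwo (by
      intro a b hab
      have hm : a⁻¹ * b ∈ CongruenceSubgroup.Gamma0 2 := QuotientGroup.leftRel_apply.mp hab
      have := colModTwo_mul (g := a) hm
      rw [mul_inv_cancel_left] at this
      exact this.symm)
  have hinj : Function.Injective φ := by
    intro x y
    induction x using Quotient.inductionOn' with | h a => ?_
    induction y using Quotient.inductionOn' with | h b => ?_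
    intro hab
    change colModTwo a = colModTwo b at hab
    refine QuotientGroup.eq.mpr ?_
    rw [CongruenceSubgroup.Gamma0_mem]
    simp only [colModTwo, Prod.mk.injEq] at hab
    rw [Matrix.SpecialLinearGroup.coe_mul, Matrix.SpecialLinearGroup.coe_inv,
      Matrix.adjugate_fin_two]
    simp [Matrix.mul_apply, Fin.sum_univ_two, hab.1, hab.2]
    ring_nf
    rw [show (2 : ZMod 2) = 0 from rfl, mul_zero]
  have := Nat.card_le_card_of_injective φ hinj
  simpa [Subgroup.index, Nat.card_prod] using this

/-- `Γ₀(1)` is everything. -/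
theorem index_Gamma0_one : (CongruenceSubgroup.Gamma0 1).index = 1 := by
  rw [Subgroup.index_eq_one, eq_top_iff]
  intro g _
  rw [CongruenceSubgroup.Gamma0_mem]
  exact Subsingleton.elim _ _

end Fermat.Agent.Elem
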